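import Mathlib

/-!
# S52 [FIVE]: internal contracts (helper38)

`E : y² = x³ - 27 c₄ x - 54 c₆` over an algebraically closed field `k`, `char k ∤ 30`.
A point `P` of order 5 has *Tate parameters* `(c, u)`:
`c₄ = u⁴ t4(c,1)`, `c₆ = u⁶ t6(c,1)`, `P = (3u²(c²-6c+1), -108u³c)`.
A family `E_T : y² = x³ + a(T) x + b(T)` together with polynomial sections through the 5-torsion of
`E_0` which are 5-torsion in every nonsingular fibre induces injective additive maps
`E_0[5] → E_s[5]`.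

Contracts (all `def … : Prop`, Mathlib only):
* `TateParamStmt`   — leaf [F1]  (file `Five/TateParam.lean`)
* `TateSectionStmt` — leaf [F2]  (file `Five/TateSection.lean`)
* `SectionAddStmt`  — leaf [F3]  (file `Five/SectionAdd.lean`)
-/

set_option autoImplicit false

open Polynomial WeierstrassCurve WeierstrassCurve.Affine

namespace Fermat.Agent.S52.Five

/-- The short Weierstrass curve `y² = x³ + a x + b`. -/
abbrev sw {R : Type*} [CommRing R] (a b : R) : WeierstrassCurve.Affine R := ⟨0, 0, 0, a, b⟩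

/-- `c₄` of Tate's normal form `y² + (1-c)xy - cy = x³ - cx²`, homogenised, `c = n/m`. -/
def t4 {R : Type*} [CommRing R] (n m : R) : R :=
  n ^ 4 - 12 * n ^ 3 * m + 14 * n ^ 2 * m ^ 2 + 12 * n * m ^ 3 + m ^ 4

/-- `c₆` of Tate's normal form, homogenised. -/
def t6 {R : Type*} [CommRing R] (n m : R) : R :=
  -(n ^ 6 - 18 * n ^ 5 * m + 75 * n ^ 4 * m ^ 2 + 75 * n ^ 2 * m ^ 4 + 18 * n * m ^ 5 + m ^ 6)

/-- abscissa of the 5-torsion section with homogeneous Tate parameter `(n : m)` and scaling `u`. -/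
def secX {R : Type*} [CommRing R] (u n m : R) : R := 3 * u ^ 2 * (n ^ 2 - 6 * n * m + m ^ 2)

/-- ordinate of the 5-torsion section. -/
def secY {R : Type*} [CommRing R] (u n m : R) : R := -108 * u ^ 3 * n * m ^ 2

section Param

variable {k : Type*} [Field k]

/-- `a₁` of the model `Y² + a₁XY + a₃Y = X³ + a₂X²` obtained from `y² = x³ - 27c₄x - 54c₆` by moving
`(x, y)` to the origin and killing the tangent (`x = 36X + x₀`, `y = 108(2Y + a₁X + a₃)`). -/
def a1Par (c4 x y : k) : k := (x ^ 2 - 9 * c4) / (2 * y)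

/-- `a₃` of that model. -/
def a3Par (y : k) : k := y / 108

/-- `a₂` of that model. -/
def a2Par (c4 x y : k) : k := x / 12 - a1Par c4 x y ^ 2 / 4

/-- The scaling `u` of the Tate parameters of the point `(x, y)`. -/
def uPar (c4 x y : k) : k := a3Par y / a2Par c4 x y

/-- The Tate parameter `c` of the point `(x, y)`. -/
def cPar (c4 x y : k) : k := 1 - a1Par c4 x y * a2Par c4 x y / a3Par y

end Param

/-- **[F1] Tate parameters of a point of order 5.** -/
def TateParamStmt : Prop :=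
  ∀ (k : Type) [Field k] [DecidableEq k], (2 : k) ≠ 0 → (3 : k) ≠ 0 →
    ∀ (c4 c6 x y : k) (h : (sw (-27 * c4) (-54 * c6)).Nonsingular x y),
      (5 : ℤ) • (Point.some x y h : (sw (-27 * c4) (-54 * c6)).Point) = 0 →
      uPar c4 x y ≠ 0 ∧
      c4 = uPar c4 x y ^ 4 * t4 (cPar c4 x y) 1 ∧
      c6 = uPar c4 x y ^ 6 * t6 (cPar c4 x y) 1 ∧
      x = secX (uPar c4 x y) (cPar c4 x y) 1 ∧
      y = secY (uPar c4 x y) (cPar c4 x y) 1

/-- **[F2] The Tate section is a point of order 5** on `y² = x³ - 27u⁴t4(n,m)x - 54u⁶t6(n,m)`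
whenever this curve is nonsingular. -/
def TateSectionStmt : Prop :=
  ∀ (k : Type) [Field k] [DecidableEq k], (2 : k) ≠ 0 → (3 : k) ≠ 0 →
    ∀ (u n m : k), (sw (-27 * (u ^ 4 * t4 n m)) (-54 * (u ^ 6 * t6 n m))).Δ ≠ 0 →
      ∃ h : (sw (-27 * (u ^ 4 * t4 n m)) (-54 * (u ^ 6 * t6 n m))).Nonsingular
          (secX u n m) (secY u n m),
        (5 : ℤ) • (Point.some _ _ h :
          (sw (-27 * (u ^ 4 * t4 n m)) (-54 * (u ^ 6 * t6 n m))).Point) = 0

/-- **[F3] Sections through the 5-torsion give additive injections between fibres.**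
`E_τ : y² = x³ + a(τ)x + b(τ)`; `SX P, SY P ∈ k[T]` for `P ∈ E_0[5] ∖ 0`. -/
def SectionAddStmt : Prop :=
  ∀ (k : Type) [Field k] [IsAlgClosed k] [DecidableEq k], (2 : k) ≠ 0 → (3 : k) ≠ 0 → (5 : k) ≠ 0 →
    ∀ (a b : k[X]) (A B : k), a.eval 0 = A → b.eval 0 = B → (sw A B).Δ ≠ 0 →
    ∀ (SX SY : (sw A B).Point → k[X]),
      -- on the curve
      (∀ P : (sw A B).Point, (5 : ℤ) • P = 0 → P ≠ 0 → SY P ^ 2 = SX P ^ 3 + a * SX P + b) →
      -- 5-torsion in every nonsingular fibre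
      (∀ P : (sw A B).Point, (5 : ℤ) • P = 0 → P ≠ 0 → ∀ τ : k,
        (sw (a.eval τ) (b.eval τ)).Δ ≠ 0 →
        ∀ h : (sw (a.eval τ) (b.eval τ)).Nonsingular ((SX P).eval τ) ((SY P).eval τ),
          (5 : ℤ) • (Point.some _ _ h : (sw (a.eval τ) (b.eval τ)).Point) = 0) →
      -- value at 0
      (∀ P : (sw A B).Point, (5 : ℤ) • P = 0 → P ≠ 0 →
        ∀ h : (sw A B).Nonsingular ((SX P).eval 0) ((SY P).eval 0), Point.some _ _ h = P) →
      -- sign
      (∀ P : (sw A B).Point, (5 : ℤ) • P = 0 → P ≠ 0 → SX (-P) = SX P ∧ SY (-P) = -SY P) →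
    ∀ (s A' B' : k), a.eval s = A' → b.eval s = B' → (sw A' B').Δ ≠ 0 →
      ∃ ι : Submodule.torsionBy ℤ (sw A B).Point 5 →+ Submodule.torsionBy ℤ (sw A' B').Point 5,
        Function.Injective ι ∧
        ∀ P : Submodule.torsionBy ℤ (sw A B).Point 5, (P : (sw A B).Point) ≠ 0 →
          ∃ h : (sw A' B').Nonsingular ((SX P).eval s) ((SY P).eval s),
            ((ι P : Submodule.torsionBy ℤ (sw A' B').Point 5) : (sw A' B').Point) = Point.some _ _ h

end Fermat.Agent.S52.Five
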