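import Mathlib
import Fermat.Agent.S52.Five.Plan
import Fermat.Agent.Lib.DivPoly.Count

/-!
# S52 [FIVE], leaf [F3]: polynomial sections through the 5-torsion are additive

`E_τ : y² = x³ + a(τ) x + b(τ)` (`a b ∈ k[T]`, `k` algebraically closed, `char k ∤ 30`).
Given polynomial sections `(SX P, SY P)` for the points `P ≠ 0` of `E_0[5]` which lie on the curve,
are 5-torsion in every nonsingular fibre, pass through `P` at `τ = 0` and satisfy
`S(-P) = -S(P)`, evaluation at any `s` with `E_s` nonsingular is an injective additive map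
`E_0[5] → E_s[5]`.

Method: no function field.  For all but finitely many `τ` the 24 values are pairwise distinct, hence
exhaust `E_τ[5] ∖ 0`; pigeonhole over the infinitely many good `τ` gives the chord identities as
polynomial identities; evaluating at `0` identifies the third section, evaluating at `s` gives
additivity (non-degeneracy at `s` from the identities for `(P, Q)` and `(P, -Q)` and `Y ≠ 0`).
-/

set_option autoImplicit false

open Polynomial WeierstrassCurve WeierstrassCurve.Affine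

namespace Fermat.Agent.S52.Five.SectionAdd

section Basic

variable {k : Type*} [Field k]

lemma equation_sw {a b x y : k} : (sw a b).Equation x y ↔ y ^ 2 = x ^ 3 + a * x + b := by
  rw [WeierstrassCurve.Affine.equation_iff]
  simp

lemma Δ_sw (a b : k) : (sw a b).Δ = -16 * (4 * a ^ 3 + 27 * b ^ 2) := by
  simp only [WeierstrassCurve.Δ, WeierstrassCurve.b₂, WeierstrassCurve.b₄, WeierstrassCurve.b₆,
    WeierstrassCurve.b₈]
  ring

lemma nonsingular_sw {a b x y : k} (hΔ : (sw a b).Δ ≠ 0) :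
    (sw a b).Nonsingular x y ↔ y ^ 2 = x ^ 3 + a * x + b := by
  rw [← equation_sw, (sw a b).equation_iff_nonsingular_of_Δ_ne_zero hΔ]

lemma negY_sw (a b x y : k) : (sw a b).negY x y = -y := by
  simp [WeierstrassCurve.Affine.negY]

lemma neg_some_sw {a b x y : k} (h : (sw a b).Nonsingular x y)
    (h' : (sw a b).Nonsingular x (-y)) :
    -(Point.some x y h : (sw a b).Point) = Point.some x (-y) h' := by
  rw [Point.neg_some]
  simp

variable [DecidableEq k]

/-- The chord formula in cleared form. -/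
lemma chord_iff {a b x₁ y₁ x₂ y₂ x₃ y₃ : k} (h₁ : (sw a b).Nonsingular x₁ y₁)
    (h₂ : (sw a b).Nonsingular x₂ y₂) (h₃ : (sw a b).Nonsingular x₃ y₃) (hx : x₁ ≠ x₂) :
    (Point.some x₁ y₁ h₁ : (sw a b).Point) + Point.some x₂ y₂ h₂ = Point.some x₃ y₃ h₃ ↔
      (x₁ - x₂) ^ 2 * x₃ = (y₁ - y₂) ^ 2 - (x₁ + x₂) * (x₁ - x₂) ^ 2 ∧
      (x₁ - x₂) * y₃ = -((y₁ - y₂) * (x₃ - x₁) + y₁ * (x₁ - x₂)) := by
  have hd : x₁ - x₂ ≠ 0 := sub_ne_zero.mpr hx
  rw [Point.add_of_X_ne hx, Point.some.injEq, WeierstrassCurve.Affine.slope_of_X_ne hx]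
  simp only [WeierstrassCurve.Affine.addX, WeierstrassCurve.Affine.addY,
    WeierstrassCurve.Affine.negAddY, WeierstrassCurve.Affine.negY]
  simp only [zero_mul, add_zero, sub_zero]
  constructor
  · rintro ⟨hX, hY⟩
    have hX' : (x₁ - x₂) ^ 2 * x₃ = (y₁ - y₂) ^ 2 - (x₁ + x₂) * (x₁ - x₂) ^ 2 := by
      rw [← hX]; field_simp; ring
    refine ⟨hX', ?_⟩
    rw [← hY, hX]; field_simp
  · rintro ⟨hX, hY⟩
    have hX' : ((y₁ - y₂) / (x₁ - x₂)) ^ 2 - x₁ - x₂ = x₃ := by
      field_simp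
      linear_combination -hX
    refine ⟨hX', ?_⟩
    rw [hX']
    field_simp
    linear_combination -hY

/-- A 5-torsion point killed by 2 is zero. -/
lemma eq_zero_of_two_five {G : Type*} [AddCommGroup G] {Q : G} (h5 : (5 : ℤ) • Q = 0)
    (h2 : Q + Q = 0) : Q = 0 := by
  have : Q = (5 : ℤ) • Q - (2 : ℤ) • (Q + Q) := by
    rw [smul_add, ← add_smul, ← sub_smul]; norm_num
  rw [this, h5, h2]; simp

/-- A nonzero 5-torsion point has nonzero ordinate. -/
lemma y_ne_zero_of_five {a b x y : k} (h : (sw a b).Nonsingular x y)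
    (h5 : (5 : ℤ) • (Point.some x y h : (sw a b).Point) = 0) : y ≠ 0 := by
  intro hy
  have h2 : (Point.some x y h : (sw a b).Point) + Point.some x y h = 0 :=
    Point.add_self_of_Y_eq (by rw [negY_sw, hy, neg_zero])
  exact Point.some_ne_zero h (eq_zero_of_two_five h5 h2)

omit [DecidableEq k] in
/-- Two points with the same abscissa are equal or opposite. -/
lemma eq_or_eq_neg_of_x_eq {a b x y y' : k} (h : (sw a b).Nonsingular x y)
    (h' : (sw a b).Nonsingular x y') :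
    (Point.some x y h : (sw a b).Point) = Point.some x y' h' ∨
      (Point.some x y h : (sw a b).Point) = -Point.some x y' h' := by
  have e := equation_sw.mp h.1
  have e' := equation_sw.mp h'.1
  have : (y - y') * (y + y') = 0 := by linear_combination e - e'
  rcases mul_eq_zero.mp this with h0 | h0
  · left
    have : y = y' := sub_eq_zero.mp h0
    subst this; rfl
  · right
    have : y = -y' := eq_neg_of_add_eq_zero_left h0
    subst this
    rw [Point.neg_some]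
    simp

end Basic

section Core

variable {k : Type} [Field k] [DecidableEq k]
variable (a b : k[X])

/-- The fibre at `τ`. -/
abbrev fib (τ : k) : WeierstrassCurve.Affine k := sw (a.eval τ) (b.eval τ)

/-- The discriminant of the family. -/
noncomputable def disc : k[X] := -16 * (4 * a ^ 3 + 27 * b ^ 2)

omit [DecidableEq k] in
lemma eval_disc (τ : k) : (disc a b).eval τ = (fib a b τ).Δ := by
  rw [Δ_sw, disc]
  simp

variable (SX SY : (fib a b 0).Point → k[X])

/-- The value at `τ` of the section through `P` (`0` if `P = 0` or the value is not a point). -/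
noncomputable def pt (τ : k) (P : (fib a b 0).Point) : (fib a b τ).Point :=
  open Classical in
  if h : P ≠ 0 ∧ (fib a b τ).Nonsingular ((SX P).eval τ) ((SY P).eval τ) then
    Point.some _ _ h.2 else 0

/-- The hypotheses of `SectionAddStmt`. -/
structure Hyp : Prop where
  h2 : (2 : k) ≠ 0
  hΔ : (fib a b 0).Δ ≠ 0
  on : ∀ P : (fib a b 0).Point, (5 : ℤ) • P = 0 → P ≠ 0 → SY P ^ 2 = SX P ^ 3 + a * SX P + b
  tors : ∀ P : (fib a b 0).Point, (5 : ℤ) • P = 0 → P ≠ 0 → ∀ τ : k, (fib a b τ).Δ ≠ 0 →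
    ∀ h : (fib a b τ).Nonsingular ((SX P).eval τ) ((SY P).eval τ),
      (5 : ℤ) • (Point.some _ _ h : (fib a b τ).Point) = 0
  zero : ∀ P : (fib a b 0).Point, (5 : ℤ) • P = 0 → P ≠ 0 →
    ∀ h : (fib a b 0).Nonsingular ((SX P).eval 0) ((SY P).eval 0), Point.some _ _ h = P
  neg : ∀ P : (fib a b 0).Point, (5 : ℤ) • P = 0 → P ≠ 0 → SX (-P) = SX P ∧ SY (-P) = -SY P

variable {a b SX SY}

namespace Hyp

variable (H : Hyp a b SX SY)
include H

lemma ns {P : (fib a b 0).Point} (h5 : (5 : ℤ) • P = 0) (h0 : P ≠ 0) {τ : k}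
    (hτ : (fib a b τ).Δ ≠ 0) : (fib a b τ).Nonsingular ((SX P).eval τ) ((SY P).eval τ) := by
  rw [nonsingular_sw hτ]
  have := congrArg (eval τ) (H.on P h5 h0)
  simpa using this

lemma pt_eq {P : (fib a b 0).Point} (h5 : (5 : ℤ) • P = 0) (h0 : P ≠ 0) {τ : k}
    (hτ : (fib a b τ).Δ ≠ 0) : pt a b SX SY τ P = Point.some _ _ (H.ns h5 h0 hτ) :=
  dif_pos ⟨h0, H.ns h5 h0 hτ⟩

omit H in
lemma pt_zero (τ : k) : pt a b SX SY τ 0 = 0 := dif_neg (by simp)

lemma pt_five {P : (fib a b 0).Point} (h5 : (5 : ℤ) • P = 0) {τ : k}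
    (hτ : (fib a b τ).Δ ≠ 0) : (5 : ℤ) • pt a b SX SY τ P = 0 := by
  by_cases h0 : P = 0
  · subst h0; rw [pt_zero]; simp
  · rw [H.pt_eq h5 h0 hτ]; exact H.tors P h5 h0 τ hτ _

lemma pt_ne_zero {P : (fib a b 0).Point} (h5 : (5 : ℤ) • P = 0) (h0 : P ≠ 0) {τ : k}
    (hτ : (fib a b τ).Δ ≠ 0) : pt a b SX SY τ P ≠ 0 := by
  rw [H.pt_eq h5 h0 hτ]; exact Point.some_ne_zero _

lemma pt_at_zero {P : (fib a b 0).Point} (h5 : (5 : ℤ) • P = 0) : pt a b SX SY 0 P = P := by
  by_cases h0 : P = 0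
  · subst h0; rw [pt_zero]
  · rw [H.pt_eq h5 h0 H.hΔ]; exact H.zero P h5 h0 _

lemma evalY_ne_zero {P : (fib a b 0).Point} (h5 : (5 : ℤ) • P = 0) (h0 : P ≠ 0) {τ : k}
    (hτ : (fib a b τ).Δ ≠ 0) : (SY P).eval τ ≠ 0 :=
  y_ne_zero_of_five (H.ns h5 h0 hτ) (H.tors P h5 h0 τ hτ _)

omit H in
lemma neg_five {P : (fib a b 0).Point} (h5 : (5 : ℤ) • P = 0) : (5 : ℤ) • (-P) = 0 := by
  rw [smul_neg, h5, neg_zero]

lemma pt_neg {P : (fib a b 0).Point} (h5 : (5 : ℤ) • P = 0) {τ : k}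
    (hτ : (fib a b τ).Δ ≠ 0) : pt a b SX SY τ (-P) = -pt a b SX SY τ P := by
  by_cases h0 : P = 0
  · subst h0; simp [pt_zero]
  · have h0' : -P ≠ 0 := neg_ne_zero.mpr h0
    have h5' := neg_five (a := a) (b := b) h5
    rw [H.pt_eq h5 h0 hτ, H.pt_eq h5' h0' hτ, Point.neg_some, Point.some.injEq]
    obtain ⟨e1, e2⟩ := H.neg P h5 h0
    rw [e1, e2]
    simp

end Hyp

end Core

section Count

variable {k : Type} [Field k] [IsAlgClosed k] [DecidableEq k]
variable {a b : k[X]} {SX SY : (fib a b 0).Point → k[X]}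

lemma card_tors (h5 : (5 : k) ≠ 0) {τ : k} (hτ : (fib a b τ).Δ ≠ 0) :
    Nat.card (Submodule.torsionBy ℤ (fib a b τ).Point 5) = 25 := by
  have := Fermat.Agent.Lib.DivPoly.card_torsionBy_of_natCast_ne_zero (fib a b τ) hτ 5
    (by exact_mod_cast h5)
  simpa using this

lemma finite_tors (h5 : (5 : k) ≠ 0) {τ : k} (hτ : (fib a b τ).Δ ≠ 0) :
    Finite (Submodule.torsionBy ℤ (fib a b τ).Point 5) :=
  Nat.finite_of_card_ne_zero (by rw [card_tors h5 hτ]; norm_num)

/-- The index set `E_0[5] ∖ 0` is finite. -/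
lemma finite_index (h5 : (5 : k) ≠ 0) (hΔ : (fib a b 0).Δ ≠ 0) :
    {P : (fib a b 0).Point | (5 : ℤ) • P = 0 ∧ P ≠ 0}.Finite := by
  have := finite_tors h5 hΔ
  have hfin : (Submodule.torsionBy ℤ (fib a b 0).Point 5 : Set (fib a b 0).Point).Finite :=
    Set.toFinite _
  refine hfin.subset ?_
  rintro P ⟨hP, -⟩
  exact (Submodule.mem_torsionBy_iff _ _).mpr hP

/-- A fibre is *generic* if it is nonsingular and the values of the sections are distinct. -/
def Generic (a b : k[X]) (SX SY : (fib a b 0).Point → k[X]) (τ : k) : Prop :=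
  (fib a b τ).Δ ≠ 0 ∧ ∀ P Q : (fib a b 0).Point, (5 : ℤ) • P = 0 → P ≠ 0 → (5 : ℤ) • Q = 0 →
    Q ≠ 0 → pt a b SX SY τ P = pt a b SX SY τ Q → P = Q

variable (H : Hyp a b SX SY)
include H

/-- All but finitely many fibres are generic. -/
lemma finite_not_generic (h5 : (5 : k) ≠ 0) : {τ : k | ¬ Generic a b SX SY τ}.Finite := by
  have hI := finite_index h5 H.hΔ
  have hD : disc a b ≠ 0 := by
    intro h
    have := eval_disc a b 0
    rw [h, eval_zero] at this
    exact H.hΔ this.symm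
  -- the coincidence locus of two different sections
  have hZ : ∀ P Q : (fib a b 0).Point, (5 : ℤ) • P = 0 → P ≠ 0 → (5 : ℤ) • Q = 0 → Q ≠ 0 →
      P ≠ Q → {τ : k | (SX P).eval τ = (SX Q).eval τ ∧ (SY P).eval τ = (SY Q).eval τ}.Finite := by
    intro P Q hP5 hP0 hQ5 hQ0 hPQ
    have hne : SX P - SX Q ≠ 0 ∨ SY P - SY Q ≠ 0 := by
      by_contra hcon
      push Not at hcon
      obtain ⟨e1, e2⟩ := hcon
      apply hPQ
      have h1 := H.pt_eq hP5 hP0 H.hΔ
      have h2 := H.pt_eq hQ5 hQ0 H.hΔ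
      rw [H.pt_at_zero hP5] at h1
      rw [H.pt_at_zero hQ5] at h2
      rw [h1, h2, Point.some.injEq, sub_eq_zero.mp e1, sub_eq_zero.mp e2]
      exact ⟨rfl, rfl⟩
    rcases hne with hne | hne
    · refine (Polynomial.finite_setOfPred_isRoot hne).subset ?_
      rintro τ ⟨h1, -⟩
      simp [Polynomial.IsRoot, h1]
    · refine (Polynomial.finite_setOfPred_isRoot hne).subset ?_
      rintro τ ⟨-, h1⟩
      simp [Polynomial.IsRoot, h1]
  have hfin : ({τ : k | (disc a b).IsRoot τ} ∪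
      ⋃ P ∈ {P : (fib a b 0).Point | (5 : ℤ) • P = 0 ∧ P ≠ 0},
        ⋃ Q ∈ {P : (fib a b 0).Point | (5 : ℤ) • P = 0 ∧ P ≠ 0},
          {τ : k | P ≠ Q ∧ (SX P).eval τ = (SX Q).eval τ ∧
            (SY P).eval τ = (SY Q).eval τ}).Finite := by
    refine (Polynomial.finite_setOfPred_isRoot hD).union ?_
    refine hI.biUnion fun P hP => hI.biUnion fun Q hQ => ?_
    by_cases hPQ : P = Q
    · simp [hPQ]
    · exact (hZ P Q hP.1 hP.2 hQ.1 hQ.2 hPQ).subset fun τ hτ => hτ.2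
  refine hfin.subset ?_
  intro τ hτ
  simp only [Set.mem_ofPred_eq, Generic, not_and, not_forall] at hτ
  by_cases hΔτ : (fib a b τ).Δ = 0
  · left
    simp only [Set.mem_ofPred_eq, Polynomial.IsRoot, eval_disc]
    exact hΔτ
  · right
    obtain ⟨P, Q, hP5, hP0, hQ5, hQ0, hpt, hPQ⟩ := hτ hΔτ
    simp only [Set.mem_iUnion, Set.mem_ofPred_eq]
    refine ⟨P, ⟨hP5, hP0⟩, Q, ⟨hQ5, hQ0⟩, hPQ, ?_⟩
    rw [H.pt_eq hP5 hP0 hΔτ, H.pt_eq hQ5 hQ0 hΔτ, Point.some.injEq] at hpt
    exact hpt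

/-- In a generic fibre the values of the sections exhaust the nonzero 5-torsion. -/
lemma exhaust (h5 : (5 : k) ≠ 0) {τ : k} (hτ : Generic a b SX SY τ)
    (Q' : (fib a b τ).Point) (hQ5 : (5 : ℤ) • Q' = 0) (hQ0 : Q' ≠ 0) :
    ∃ P : (fib a b 0).Point, (5 : ℤ) • P = 0 ∧ P ≠ 0 ∧ pt a b SX SY τ P = Q' := by
  have := finite_tors (a := a) (b := b) h5 hτ.1
  let f : Submodule.torsionBy ℤ (fib a b 0).Point 5 → Submodule.torsionBy ℤ (fib a b τ).Point 5 :=
    fun P => ⟨pt a b SX SY τ P,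
      (Submodule.mem_torsionBy_iff _ _).mpr (H.pt_five ((Submodule.mem_torsionBy_iff _ _).mp P.2) hτ.1)⟩
  have hinj : Function.Injective f := by
    intro P Q hPQ
    have hP5 := (Submodule.mem_torsionBy_iff _ _).mp P.2
    have hQ5 := (Submodule.mem_torsionBy_iff _ _).mp Q.2
    have e : pt a b SX SY τ P = pt a b SX SY τ Q := congrArg Subtype.val hPQ
    apply Subtype.ext
    by_cases hP0 : (P : (fib a b 0).Point) = 0
    · by_cases hQ0 : (Q : (fib a b 0).Point) = 0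
      · rw [hP0, hQ0]
      · rw [hP0, Hyp.pt_zero] at e
        exact absurd e.symm (H.pt_ne_zero hQ5 hQ0 hτ.1)
    · by_cases hQ0 : (Q : (fib a b 0).Point) = 0
      · rw [hQ0, Hyp.pt_zero] at e
        exact absurd e (H.pt_ne_zero hP5 hP0 hτ.1)
      · exact hτ.2 _ _ hP5 hP0 hQ5 hQ0 e
  have hbij : Function.Bijective f :=
    hinj.bijective_of_nat_card_le (by rw [card_tors h5 hτ.1, card_tors h5 H.hΔ])
  obtain ⟨P, hP⟩ := hbij.2 ⟨Q', (Submodule.mem_torsionBy_iff _ _).mpr hQ5⟩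
  have e : pt a b SX SY τ P = Q' := congrArg Subtype.val hP
  refine ⟨P, (Submodule.mem_torsionBy_iff _ _).mp P.2, ?_, e⟩
  intro h0
  rw [h0, Hyp.pt_zero] at e
  exact hQ0 e.symm

end Count

section Chord

variable {k : Type} [Field k] [IsAlgClosed k] [DecidableEq k]
variable {a b : k[X]} {SX SY : (fib a b 0).Point → k[X]}

/-- First chord polynomial. -/
noncomputable def ch1 (SX SY : (fib a b 0).Point → k[X]) (P Q R : (fib a b 0).Point) : k[X] :=
  (SX P - SX Q) ^ 2 * SX R - ((SY P - SY Q) ^ 2 - (SX P + SX Q) * (SX P - SX Q) ^ 2)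

/-- Second chord polynomial. -/
noncomputable def ch2 (SX SY : (fib a b 0).Point → k[X]) (P Q R : (fib a b 0).Point) : k[X] :=
  (SX P - SX Q) * SY R + ((SY P - SY Q) * (SX R - SX P) + SY P * (SX P - SX Q))

variable (H : Hyp a b SX SY)
include H

omit [IsAlgClosed k] in
/-- The chord formula for the values of three sections in a nonsingular fibre. -/
lemma chord_eval {P Q R : (fib a b 0).Point} (hP5 : (5 : ℤ) • P = 0) (hP0 : P ≠ 0)
    (hQ5 : (5 : ℤ) • Q = 0) (hQ0 : Q ≠ 0) (hR5 : (5 : ℤ) • R = 0) (hR0 : R ≠ 0) {τ : k}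
    (hτ : (fib a b τ).Δ ≠ 0) (hx : (SX P).eval τ ≠ (SX Q).eval τ) :
    pt a b SX SY τ P + pt a b SX SY τ Q = pt a b SX SY τ R ↔
      (ch1 SX SY P Q R).eval τ = 0 ∧ (ch2 SX SY P Q R).eval τ = 0 := by
  rw [H.pt_eq hP5 hP0 hτ, H.pt_eq hQ5 hQ0 hτ, H.pt_eq hR5 hR0 hτ, chord_iff _ _ _ hx]
  simp only [ch1, ch2, eval_sub, eval_mul, eval_pow, eval_add]
  constructor
  · rintro ⟨h1, h2⟩
    exact ⟨by linear_combination h1, by linear_combination h2⟩
  · rintro ⟨h1, h2⟩
    exact ⟨by linear_combination h1, by linear_combination h2⟩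

/-- **The chord identities hold as polynomial identities.** -/
lemma chord_poly (h5 : (5 : k) ≠ 0) {P Q : (fib a b 0).Point} (hP5 : (5 : ℤ) • P = 0)
    (hP0 : P ≠ 0) (hQ5 : (5 : ℤ) • Q = 0) (hQ0 : Q ≠ 0) (hPQ : P ≠ Q) (hPQ' : P ≠ -Q) :
    ch1 SX SY P Q (P + Q) = 0 ∧ ch2 SX SY P Q (P + Q) = 0 := by
  have hI := finite_index h5 H.hΔ
  -- the abscissas differ at 0
  have hx0 : (SX P).eval 0 ≠ (SX Q).eval 0 := by
    intro hx
    have h1 := H.pt_eq hP5 hP0 H.hΔ
    have h2 := H.pt_eq hQ5 hQ0 H.hΔ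
    rw [H.pt_at_zero hP5] at h1
    rw [H.pt_at_zero hQ5] at h2
    have hns := H.ns hQ5 hQ0 H.hΔ
    rw [← hx] at hns
    have h2' : (Point.some ((SX Q).eval 0) ((SY Q).eval 0) (H.ns hQ5 hQ0 H.hΔ) :
        (fib a b 0).Point) = Point.some ((SX P).eval 0) ((SY Q).eval 0) hns := by
      rw [Point.some.injEq]; exact ⟨hx.symm, rfl⟩
    rcases eq_or_eq_neg_of_x_eq (H.ns hP5 hP0 H.hΔ) hns with h | h
    · exact hPQ (h1.trans (h.trans (h2'.symm.trans h2.symm)))
    · exact hPQ' (h1.trans (h.trans (congrArg Neg.neg (h2'.symm.trans h2.symm))))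
  have hd : SX P - SX Q ≠ 0 := by
    intro h
    apply hx0
    rw [sub_eq_zero.mp h]
  -- the infinite set of good parameters
  have hTinf : {τ : k | Generic a b SX SY τ ∧ ¬ (SX P - SX Q).IsRoot τ}.Infinite := by
    have hfin : ({τ : k | ¬ Generic a b SX SY τ} ∪ {τ : k | (SX P - SX Q).IsRoot τ}).Finite :=
      (finite_not_generic H h5).union (Polynomial.finite_setOfPred_isRoot hd)
    have := hfin.infinite_compl
    refine this.mono ?_
    intro τ hτ
    simp only [Set.mem_compl_iff, Set.mem_union, Set.mem_ofPred_eq, not_or, not_not] at hτ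
    exact hτ
  -- pigeonhole
  obtain ⟨R, ⟨hR5, hR0⟩, hRinf⟩ : ∃ R ∈ {P : (fib a b 0).Point | (5 : ℤ) • P = 0 ∧ P ≠ 0},
      {τ : k | (Generic a b SX SY τ ∧ ¬ (SX P - SX Q).IsRoot τ) ∧
        pt a b SX SY τ P + pt a b SX SY τ Q = pt a b SX SY τ R}.Infinite := by
    by_contra hcon
    push Not at hcon
    have hfin := hI.biUnion (fun R hR => hcon R hR)
    refine hTinf (hfin.subset ?_)
    rintro τ ⟨hg, hr⟩
    have hx : (SX P).eval τ ≠ (SX Q).eval τ := by
      intro hx; apply hr; simp [Polynomial.IsRoot, hx]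
    -- the sum is a nonzero 5-torsion point
    have hsum5 : (5 : ℤ) • (pt a b SX SY τ P + pt a b SX SY τ Q) = 0 := by
      rw [smul_add, H.pt_five hP5 hg.1, H.pt_five hQ5 hg.1, add_zero]
    have hsum0 : pt a b SX SY τ P + pt a b SX SY τ Q ≠ 0 := by
      rw [H.pt_eq hP5 hP0 hg.1, H.pt_eq hQ5 hQ0 hg.1, Point.add_of_X_ne hx]
      exact Point.some_ne_zero _
    obtain ⟨R, hR5, hR0, hR⟩ := exhaust H h5 hg _ hsum5 hsum0
    simp only [Set.mem_iUnion, Set.mem_ofPred_eq]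
    exact ⟨R, ⟨hR5, hR0⟩, ⟨hg, hr⟩, hR.symm⟩
  -- the chord polynomials vanish
  have hroot : ∀ τ ∈ {τ : k | (Generic a b SX SY τ ∧ ¬ (SX P - SX Q).IsRoot τ) ∧
        pt a b SX SY τ P + pt a b SX SY τ Q = pt a b SX SY τ R},
      (ch1 SX SY P Q R).eval τ = 0 ∧ (ch2 SX SY P Q R).eval τ = 0 := by
    rintro τ ⟨⟨hg, hr⟩, hsum⟩
    have hx : (SX P).eval τ ≠ (SX Q).eval τ := by
      intro hx; apply hr; simp [Polynomial.IsRoot, hx]
    exact (chord_eval H hP5 hP0 hQ5 hQ0 hR5 hR0 hg.1 hx).mp hsum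
  have h1 : ch1 SX SY P Q R = 0 :=
    Polynomial.eq_zero_of_infinite_isRoot _ (hRinf.mono fun τ hτ => (hroot τ hτ).1)
  have h2 : ch2 SX SY P Q R = 0 :=
    Polynomial.eq_zero_of_infinite_isRoot _ (hRinf.mono fun τ hτ => (hroot τ hτ).2)
  -- identify `R` at `τ = 0`
  have hsum0 : pt a b SX SY 0 P + pt a b SX SY 0 Q = pt a b SX SY 0 R :=
    (chord_eval H hP5 hP0 hQ5 hQ0 hR5 hR0 H.hΔ hx0).mpr ⟨by rw [h1, eval_zero], by rw [h2, eval_zero]⟩
  rw [H.pt_at_zero hP5, H.pt_at_zero hQ5, H.pt_at_zero hR5] at hsum0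
  rw [hsum0]
  exact ⟨h1, h2⟩

/-- Non-degeneracy in every nonsingular fibre. -/
lemma evalX_ne (h5 : (5 : k) ≠ 0) {P Q : (fib a b 0).Point} (hP5 : (5 : ℤ) • P = 0)
    (hP0 : P ≠ 0) (hQ5 : (5 : ℤ) • Q = 0) (hQ0 : Q ≠ 0) (hPQ : P ≠ Q) (hPQ' : P ≠ -Q) {s : k}
    (hs : (fib a b s).Δ ≠ 0) : (SX P).eval s ≠ (SX Q).eval s := by
  intro hx
  have hQ5' := Hyp.neg_five (a := a) (b := b) hQ5
  have hQ0' : -Q ≠ 0 := neg_ne_zero.mpr hQ0
  obtain ⟨e1, -⟩ := chord_poly H h5 hP5 hP0 hQ5 hQ0 hPQ hPQ'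
  obtain ⟨e2, -⟩ := chord_poly H h5 hP5 hP0 hQ5' hQ0' hPQ' (by rwa [neg_neg])
  obtain ⟨n1, n2⟩ := H.neg Q hQ5 hQ0
  have e1' := congrArg (eval s) e1
  have e2' := congrArg (eval s) e2
  simp only [ch1, n1, n2, eval_sub, eval_mul, eval_pow, eval_add, eval_neg, eval_zero, hx] at e1' e2'
  have hy1 : (SY P).eval s - (SY Q).eval s = 0 := by
    have : ((SY P).eval s - (SY Q).eval s) ^ 2 = 0 := by linear_combination -e1'
    exact pow_eq_zero_iff (two_ne_zero) |>.mp this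
  have hy2 : (SY P).eval s + (SY Q).eval s = 0 := by
    have : ((SY P).eval s + (SY Q).eval s) ^ 2 = 0 := by linear_combination -e2'
    exact pow_eq_zero_iff (two_ne_zero) |>.mp this
  have hy : (2 : k) * (SY P).eval s = 0 := by linear_combination hy1 + hy2
  rcases mul_eq_zero.mp hy with h | h
  · exact H.h2 h
  · exact H.evalY_ne_zero hP5 hP0 hs h

/-- Additivity for points in general position. -/
lemma pt_add_of_ne (h5 : (5 : k) ≠ 0) {P Q : (fib a b 0).Point} (hP5 : (5 : ℤ) • P = 0)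
    (hP0 : P ≠ 0) (hQ5 : (5 : ℤ) • Q = 0) (hQ0 : Q ≠ 0) (hPQ : P ≠ Q) (hPQ' : P ≠ -Q) {s : k}
    (hs : (fib a b s).Δ ≠ 0) :
    pt a b SX SY s (P + Q) = pt a b SX SY s P + pt a b SX SY s Q := by
  have hR5 : (5 : ℤ) • (P + Q) = 0 := by rw [smul_add, hP5, hQ5, add_zero]
  have hR0 : P + Q ≠ 0 := fun h => hPQ' (eq_neg_of_add_eq_zero_left h)
  obtain ⟨e1, e2⟩ := chord_poly H h5 hP5 hP0 hQ5 hQ0 hPQ hPQ'
  exact ((chord_eval H hP5 hP0 hQ5 hQ0 hR5 hR0 hs
    (evalX_ne H h5 hP5 hP0 hQ5 hQ0 hPQ hPQ' hs)).mpr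
      ⟨by rw [e1, eval_zero], by rw [e2, eval_zero]⟩).symm

end Chord

section Final

variable {k : Type} [Field k] [IsAlgClosed k] [DecidableEq k]
variable {a b : k[X]} {SX SY : (fib a b 0).Point → k[X]}

omit [IsAlgClosed k] [DecidableEq k] in
lemma two_nsmul_ne_zero {G : Type*} [AddCommGroup G] {P : G} (h5 : (5 : ℤ) • P = 0) (h0 : P ≠ 0) :
    P + P ≠ 0 := fun h => h0 (eq_zero_of_two_five h5 h)

/-- There is a 5-torsion point outside `{0, P, -P}`. -/
lemma exists_other (h5 : (5 : k) ≠ 0) (hΔ : (fib a b 0).Δ ≠ 0) (P : (fib a b 0).Point) :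
    ∃ Q : (fib a b 0).Point, (5 : ℤ) • Q = 0 ∧ Q ≠ 0 ∧ Q ≠ P ∧ Q ≠ -P := by
  classical
  by_contra hcon
  push Not at hcon
  have hfin := finite_tors (a := a) (b := b) h5 hΔ
  have hcard := card_tors (a := a) (b := b) h5 hΔ
  let f : Submodule.torsionBy ℤ (fib a b 0).Point 5 → Fin 3 := fun Q =>
    if (Q : (fib a b 0).Point) = 0 then 0 else if (Q : (fib a b 0).Point) = P then 1 else 2
  have hinj : Function.Injective f := by
    intro Q Q' hQQ'
    have hQ := hcon Q ((Submodule.mem_torsionBy_iff _ _).mp Q.2)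
    have hQ' := hcon Q' ((Submodule.mem_torsionBy_iff _ _).mp Q'.2)
    apply Subtype.ext
    simp only [f] at hQQ'
    by_cases h1 : (Q : (fib a b 0).Point) = 0
    · by_cases h1' : (Q' : (fib a b 0).Point) = 0
      · rw [h1, h1']
      · by_cases h2' : (Q' : (fib a b 0).Point) = P
        · rw [if_pos h1, if_neg h1', if_pos h2'] at hQQ'
          exact absurd hQQ' (by decide)
        · rw [if_pos h1, if_neg h1', if_neg h2'] at hQQ'
          exact absurd hQQ' (by decide)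
    · by_cases h2 : (Q : (fib a b 0).Point) = P
      · by_cases h1' : (Q' : (fib a b 0).Point) = 0
        · rw [if_neg h1, if_pos h2, if_pos h1'] at hQQ'
          exact absurd hQQ' (by decide)
        · by_cases h2' : (Q' : (fib a b 0).Point) = P
          · rw [h2, h2']
          · rw [if_neg h1, if_pos h2, if_neg h1', if_neg h2'] at hQQ'
            exact absurd hQQ' (by decide)
      · by_cases h1' : (Q' : (fib a b 0).Point) = 0
        · rw [if_neg h1, if_neg h2, if_pos h1'] at hQQ'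
          exact absurd hQQ' (by decide)
        · by_cases h2' : (Q' : (fib a b 0).Point) = P
          · rw [if_neg h1, if_neg h2, if_neg h1', if_pos h2'] at hQQ'
            exact absurd hQQ' (by decide)
          · rw [hQ h1 h2, hQ' h1' h2']
  have := Nat.card_le_card_of_injective f hinj
  rw [hcard] at this
  simp at this

variable (H : Hyp a b SX SY)
include H

/-- Additivity of the specialisation on the whole 5-torsion. -/
lemma pt_add (h5 : (5 : k) ≠ 0) {P Q : (fib a b 0).Point} (hP5 : (5 : ℤ) • P = 0)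
    (hQ5 : (5 : ℤ) • Q = 0) {s : k} (hs : (fib a b s).Δ ≠ 0) :
    pt a b SX SY s (P + Q) = pt a b SX SY s P + pt a b SX SY s Q := by
  by_cases hP0 : P = 0
  · subst hP0; rw [zero_add, Hyp.pt_zero, zero_add]
  by_cases hQ0 : Q = 0
  · subst hQ0; rw [add_zero, Hyp.pt_zero, add_zero]
  by_cases hPQ' : P = -Q
  · subst hPQ'
    rw [neg_add_cancel, Hyp.pt_zero, H.pt_neg hQ5 hs, neg_add_cancel]
  by_cases hPQ : P = Q
  · subst hPQ
    -- doubling via an auxiliary point
    obtain ⟨Q, hQ5, hQ0, hQP, hQP'⟩ := exists_other h5 H.hΔ P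
    have hQ5' := Hyp.neg_five (a := a) (b := b) hQ5
    have hQ0' : -Q ≠ 0 := neg_ne_zero.mpr hQ0
    have hA5 : (5 : ℤ) • (P + Q) = 0 := by rw [smul_add, hP5, hQ5, add_zero]
    have hB5 : (5 : ℤ) • (P + -Q) = 0 := by rw [smul_add, hP5, hQ5', add_zero]
    have hA0 : P + Q ≠ 0 := fun h => hQP' (eq_neg_of_add_eq_zero_right h)
    have hB0 : P + -Q ≠ 0 := fun h => hQP (by
      have := eq_neg_of_add_eq_zero_left h
      rw [neg_neg] at this
      exact this.symm)
    have hAB : P + Q ≠ P + -Q := by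
      intro h
      have h' : Q = -Q := add_left_cancel h
      exact two_nsmul_ne_zero hQ5 hQ0 (by
        have := congrArg (fun z => z + Q) h'
        simpa using this)
    have hAB' : P + Q ≠ -(P + -Q) := by
      intro h
      apply two_nsmul_ne_zero hP5 hP0
      have := congrArg (fun z => z + (P + -Q)) h
      simp only [neg_add_cancel] at this
      rw [← this]; abel
    have e1 := pt_add_of_ne H h5 hP5 hP0 hQ5 hQ0 (Ne.symm hQP) (fun h => hQP' (by rw [h, neg_neg])) hs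
    have e2 := pt_add_of_ne H h5 hP5 hP0 hQ5' hQ0' (fun h => hQP' (by rw [h, neg_neg]))
      (by rw [neg_neg]; exact Ne.symm hQP) hs
    have e3 := pt_add_of_ne H h5 hA5 hA0 hB5 hB0 hAB hAB' hs
    have e4 : P + Q + (P + -Q) = P + P := by abel
    rw [e4, e1, e2, H.pt_neg hQ5 hs] at e3
    rw [e3]; abel
  · exact pt_add_of_ne H h5 hP5 hP0 hQ5 hQ0 hPQ hPQ' hs

/-- The specialisation as an additive map on 5-torsion. -/
noncomputable def spec (h5 : (5 : k) ≠ 0) {s : k} (hs : (fib a b s).Δ ≠ 0) :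
    Submodule.torsionBy ℤ (fib a b 0).Point 5 →+ Submodule.torsionBy ℤ (fib a b s).Point 5 :=
  AddMonoidHom.mk'
    (fun P => ⟨pt a b SX SY s P, (Submodule.mem_torsionBy_iff _ _).mpr
      (H.pt_five ((Submodule.mem_torsionBy_iff _ _).mp P.2) hs)⟩)
    (fun P Q => Subtype.ext (pt_add H h5 ((Submodule.mem_torsionBy_iff _ _).mp P.2)
      ((Submodule.mem_torsionBy_iff _ _).mp Q.2) hs))

lemma spec_coe (h5 : (5 : k) ≠ 0) {s : k} (hs : (fib a b s).Δ ≠ 0)
    (P : Submodule.torsionBy ℤ (fib a b 0).Point 5) :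
    ((spec H h5 hs P : Submodule.torsionBy ℤ (fib a b s).Point 5) : (fib a b s).Point) =
      pt a b SX SY s P := rfl

lemma spec_injective (h5 : (5 : k) ≠ 0) {s : k} (hs : (fib a b s).Δ ≠ 0) :
    Function.Injective (spec H h5 hs) := by
  rw [injective_iff_map_eq_zero]
  intro P hP
  by_contra h0
  have h0' : (P : (fib a b 0).Point) ≠ 0 := fun h => h0 (Subtype.ext h)
  have := congrArg Subtype.val hP
  rw [spec_coe] at this
  exact H.pt_ne_zero ((Submodule.mem_torsionBy_iff _ _).mp P.2) h0' hs this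

end Final

end SectionAdd

open SectionAdd in
/-- **[F3]** polynomial sections through the 5-torsion induce injective additive maps between the
5-torsion groups of the nonsingular fibres. -/
theorem sectionAddStmt : SectionAddStmt := by
  intro k _ _ _ h2 _ h5 a b A B hA hB hΔ SX SY hon htors hzero hneg s A' B' hA' hB' hΔ'
  subst hA hB hA' hB'
  have H : Hyp a b SX SY := ⟨h2, hΔ, hon, htors, hzero, hneg⟩
  refine ⟨spec H h5 hΔ', spec_injective H h5 hΔ', fun P hP => ?_⟩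
  have hP5 := (Submodule.mem_torsionBy_iff _ _).mp P.2
  exact ⟨H.ns hP5 hP hΔ', by rw [spec_coe, H.pt_eq hP5 hP hΔ']⟩

end Fermat.Agent.S52.Five

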