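import Fermat.Agent.S52.Five.Plan
import Fermat.Agent.S52.FiveTate

/-!
# S52 [FIVE], leaf [F1]: Tate parameters of a point of order five

`tateParamStmt : TateParamStmt`, deduced from the dictionary in `Fermat.Agent.S52.FiveTate`:
with `A = -27 c₄` one has `lam = 3·a1Par`, `dd = -36·a2Par`, `tateU = uPar` and, under the
five-torsion relation, `tateC = cPar`.
-/

set_option autoImplicit false

open WeierstrassCurve WeierstrassCurve.Affine

namespace Fermat.Agent.S52.Five

namespace TateParam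

open Fermat.Agent.S52.FiveTate

variable {k : Type*} [Field k]

theorem lam_eq (c4 x y : k) : lam (-27 * c4) x y = 3 * a1Par c4 x y := by
  simp only [lam, a1Par]
  rw [← mul_div_assoc]
  congr 1
  ring

theorem dd_eq (h2 : (2 : k) ≠ 0) (h3 : (3 : k) ≠ 0) (c4 x y : k) :
    dd (-27 * c4) x y = -36 * a2Par c4 x y := by
  have h4 : (4 : k) ≠ 0 := by
    have : (4 : k) = 2 * 2 := by norm_num
    rw [this]; exact mul_ne_zero h2 h2
  have h12 : (12 : k) ≠ 0 := by
    have : (12 : k) = 2 * 2 * 3 := by norm_num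
    rw [this]; exact mul_ne_zero (mul_ne_zero h2 h2) h3
  simp only [dd, lam_eq, a2Par]
  field_simp
  ring

theorem tateU_eq (c4 x y : k) :
    tateU (-27 * c4) x y = -y / (3 * dd (-27 * c4) x y) := rfl

theorem uPar_eq (h2 : (2 : k) ≠ 0) (h3 : (3 : k) ≠ 0) (c4 x y : k) :
    tateU (-27 * c4) x y = uPar c4 x y := by
  have h108 : (108 : k) ≠ 0 := by
    have : (108 : k) = 2 * 2 * 3 * 3 * 3 := by norm_num
    rw [this]; simp [h2, h3]
  simp only [tateU, dd_eq h2 h3, uPar, a3Par]
  have e : (3 : k) * (-36 * a2Par c4 x y) = -(108 * a2Par c4 x y) := by ring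
  rw [e, neg_div_neg_eq, div_div]

theorem tateC_eq (h2 : (2 : k) ≠ 0) (h3 : (3 : k) ≠ 0) {c4 x y : k} (hy : y ≠ 0)
    (hth : theta (-27 * c4) x y = 0) :
    tateC (-27 * c4) x y = cPar c4 x y := by
  have h108 : (108 : k) ≠ 0 := by
    have : (108 : k) = 2 * 2 * 3 * 3 * 3 := by norm_num
    rw [this]; simp [h2, h3]
  have h4 : (4 : k) ≠ 0 := by
    have : (4 : k) = 2 * 2 := by norm_num
    rw [this]; exact mul_ne_zero h2 h2
  have h46656 : (46656 : k) ≠ 0 := by
    have : (46656 : k) = 2 ^ 6 * 3 ^ 6 := by norm_num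
    rw [this]; exact mul_ne_zero (pow_ne_zero _ h2) (pow_ne_zero _ h3)
  simp only [theta, dd_eq h2 h3, lam_eq] at hth
  simp only [tateC, dd_eq h2 h3, cPar, a3Par]
  generalize a1Par c4 x y = a1 at *
  generalize a2Par c4 x y = a2 at *
  have hrel : 11664 * a2 ^ 3 - 108 * a1 * a2 * y + y ^ 2 = 0 := by
    have : (4 : k) * (11664 * a2 ^ 3 - 108 * a1 * a2 * y + y ^ 2) = 0 := by
      linear_combination (-1 : k) * hth
    rcases mul_eq_zero.mp this with h | h
    · exact absurd h h4
    · exact h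
  have e1 : a1 * a2 / (y / 108) = 108 * a1 * a2 / y := by
    rw [div_div_eq_mul_div]; congr 1; ring
  rw [e1, div_eq_iff (mul_ne_zero h4 (pow_ne_zero 2 hy))]
  have e2 : (1 - 108 * a1 * a2 / y) * (4 * y ^ 2) = 4 * y ^ 2 - 432 * a1 * a2 * y := by
    have : 108 * a1 * a2 / y * (4 * y ^ 2) = 432 * a1 * a2 * y := by
      rw [div_mul_eq_mul_div, div_eq_iff hy]; ring
    rw [sub_mul, one_mul, this]
  rw [e2]
  linear_combination (-4 : k) * hrel

end TateParam

open Fermat.Agent.S52.FiveTate in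
/-- **[F1] Tate parameters of a point of order 5.** -/
theorem tateParamStmt : TateParamStmt := by
  intro k _ _ h2 h3 c4 c6 x y h h5
  have h5' : (5 : ℕ) • (Point.some x y h : (sw (-27 * c4) (-54 * c6)).Point) = 0 := by
    have : ((5 : ℕ) : ℤ) • (Point.some x y h : (sw (-27 * c4) (-54 * c6)).Point) = 0 := by
      simpa using h5
    rwa [natCast_zsmul] at this
  have h27 : (27 : k) ≠ 0 := by
    have : (27 : k) = 3 * 3 * 3 := by norm_num
    rw [this]; simp [h3]
  have h54 : (54 : k) ≠ 0 := by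
    have : (54 : k) = 2 * 3 * 3 * 3 := by norm_num
    rw [this]; simp [h2, h3]
  obtain ⟨hy, hd, hth⟩ :=
    (five_nsmul_eq_zero_iff (W := sw (-27 * c4) (-54 * c6)) h2 rfl rfl rfl h).mp h5'
  obtain ⟨hu, hc, hx, hyf, hA, hB, -, -⟩ :=
    tate_param (W := sw (-27 * c4) (-54 * c6)) h2 h3 rfl rfl rfl h h5'
  simp only [TateParam.uPar_eq h2 h3, TateParam.tateC_eq h2 h3 hy hth] at hu hc hx hyf hA hB
  refine ⟨hu, ?_, ?_, ?_, ?_⟩
  · have : (27 : k) * (c4 - uPar c4 x y ^ 4 * t4 (cPar c4 x y) 1) = 0 := by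
      simp only [t4]
      simp only [tq4] at hA
      linear_combination (-1 : k) * hA
    rcases mul_eq_zero.mp this with h | h
    · exact absurd h h27
    · exact sub_eq_zero.mp h
  · have : (54 : k) * (c6 - uPar c4 x y ^ 6 * t6 (cPar c4 x y) 1) = 0 := by
      simp only [t6]
      simp only [tq6] at hB
      linear_combination (-1 : k) * hB
    rcases mul_eq_zero.mp this with h | h
    · exact absurd h h54
    · exact sub_eq_zero.mp h
  · simp only [secX]
    linear_combination hx
  · simp only [secY]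
    linear_combination hyf

end Fermat.Agent.S52.Five
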