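import Mathlib
import Fermat.Agent.S52.Five.Plan

/-!
# S52 [FIVE], leaf [F2]: the Tate section is a point of order 5

On `E : y² = x³ - 27 u⁴ t4(n,m) x - 54 u⁶ t6(n,m)` (nonsingular) the point
`S = (3u²(n² - 6nm + m²), -108u³nm²)` satisfies `2S = S₂ := (3u²(n² + 6nm + m²), 108u³n²m)` and
`2S₂ = -S`, hence `5S = 0`.
-/

set_option autoImplicit false

open WeierstrassCurve WeierstrassCurve.Affine

namespace Fermat.Agent.S52.Five

namespace TateSection

variable {k : Type} [Field k]

/-- The discriminant of the short Weierstrass curve `y² = x³ + a x + b`. -/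
theorem sw_Δ (a b : k) : (sw a b).Δ = -16 * (4 * a ^ 3 + 27 * b ^ 2) := by
  simp only [WeierstrassCurve.Δ, WeierstrassCurve.b₂, WeierstrassCurve.b₄, WeierstrassCurve.b₆,
    WeierstrassCurve.b₈]
  ring

/-- The discriminant of the Tate family. -/
theorem tate_Δ (u n m : k) :
    (sw (-27 * (u ^ 4 * t4 n m)) (-54 * (u ^ 6 * t6 n m))).Δ =
      2176782336 * u ^ 12 * (n * m) ^ 5 * (n ^ 2 - 11 * n * m - m ^ 2) := by
  rw [sw_Δ]
  simp only [t4, t6]
  ring

theorem sw_equation_iff (a b x y : k) : (sw a b).Equation x y ↔ y ^ 2 = x ^ 3 + a * x + b := by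
  rw [Affine.equation_iff]
  constructor
  · intro h; linear_combination h
  · intro h; linear_combination h

theorem sw_negY (a b x y : k) : (sw a b).negY x y = -y := by
  simp [Affine.negY]

variable [DecidableEq k]

/-- Doubling a point with `y ≠ 0` on a short Weierstrass curve. -/
theorem double_sw (h2 : (2 : k) ≠ 0) (a b : k) {x y x' y' : k} (h : (sw a b).Nonsingular x y)
    (h' : (sw a b).Nonsingular x' y') (hy : y ≠ 0)
    (hx : ((3 * x ^ 2 + a) / (2 * y)) ^ 2 - 2 * x = x')
    (hy' : -(((3 * x ^ 2 + a) / (2 * y)) * (x' - x) + y) = y') :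
    (Point.some _ _ h : (sw a b).Point) + Point.some _ _ h = Point.some _ _ h' := by
  have hne : y ≠ (sw a b).negY x y := by
    rw [sw_negY]
    intro h0
    have : (2 : k) * y = 0 := by linear_combination h0
    rcases mul_eq_zero.mp this with h | h
    · exact h2 h
    · exact hy h
  rw [Point.add_self_of_Y_ne hne]
  have hs : (sw a b).slope x x y y = (3 * x ^ 2 + a) / (2 * y) := by
    rw [Affine.slope_of_Y_ne rfl hne, sw_negY]
    congr 1
    · simp
    · ring
  have e1 : (sw a b).addX x x ((sw a b).slope x x y y) = x' := by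
    rw [hs, ← hx]
    simp only [Affine.addX]
    ring
  have e2 : (sw a b).addY x x y ((sw a b).slope x x y y) = y' := by
    rw [Affine.addY, Affine.negAddY, e1, sw_negY, hs, ← hy']
  simp only [Point.some.injEq]
  exact ⟨e1, e2⟩

end TateSection

open TateSection in
/-- **[F2]** The Tate section is a point of order 5 on every nonsingular member of the Tate
family. -/
theorem tateSectionStmt : TateSectionStmt := by
  intro k _ _ h2 h3 u n m hΔ
  -- nonvanishing of the parameters
  have hΔ' := hΔ
  rw [tate_Δ] at hΔ'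
  have hu : u ≠ 0 := by
    rintro rfl
    apply hΔ'
    ring
  have hn : n ≠ 0 := by
    rintro rfl
    apply hΔ'
    ring
  have hm : m ≠ 0 := by
    rintro rfl
    apply hΔ'
    ring
  set a : k := -27 * (u ^ 4 * t4 n m) with ha
  set b : k := -54 * (u ^ 6 * t6 n m) with hb
  -- the two points
  have hS : (sw a b).Nonsingular (secX u n m) (secY u n m) := by
    rw [← Affine.equation_iff_nonsingular_of_Δ_ne_zero hΔ, sw_equation_iff]
    simp only [ha, hb, secX, secY, t4, t6]
    ring
  have hS2 : (sw a b).Nonsingular (3 * u ^ 2 * (n ^ 2 + 6 * n * m + m ^ 2))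
      (108 * u ^ 3 * n ^ 2 * m) := by
    rw [← Affine.equation_iff_nonsingular_of_Δ_ne_zero hΔ, sw_equation_iff]
    simp only [ha, hb, t4, t6]
    ring
  have hSneg : (sw a b).Nonsingular (secX u n m) ((sw a b).negY (secX u n m) (secY u n m)) :=
    (Affine.nonsingular_neg ..).mpr hS
  refine ⟨hS, ?_⟩
  have h6 : (6 : k) ≠ 0 := by
    have : (6 : k) = 2 * 3 := by norm_num
    rw [this]; exact mul_ne_zero h2 h3
  have h108 : (108 : k) ≠ 0 := by
    have : (108 : k) = 2 ^ 2 * 3 ^ 3 := by norm_num
    rw [this]; exact mul_ne_zero (pow_ne_zero _ h2) (pow_ne_zero _ h3)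
  have hy1 : secY u n m ≠ 0 := by
    simp only [secY]
    exact mul_ne_zero (mul_ne_zero (mul_ne_zero (neg_ne_zero.mpr h108) (pow_ne_zero _ hu)) hn)
      (pow_ne_zero _ hm)
  have hy2 : (108 * u ^ 3 * n ^ 2 * m : k) ≠ 0 :=
    mul_ne_zero (mul_ne_zero (mul_ne_zero h108 (pow_ne_zero _ hu)) (pow_ne_zero _ hn)) hm
  -- 2 S = S₂
  have d1 : (Point.some _ _ hS : (sw a b).Point) + Point.some _ _ hS = Point.some _ _ hS2 := by
    refine double_sw h2 a b hS hS2 hy1 ?_ ?_
    · simp only [ha, secX, secY, t4]
      field_simp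
      ring
    · simp only [ha, secX, secY, t4]
      field_simp
      ring
  -- 2 S₂ = -S
  have d2 : (Point.some _ _ hS2 : (sw a b).Point) + Point.some _ _ hS2 = Point.some _ _ hSneg := by
    refine double_sw h2 a b hS2 hSneg hy2 ?_ ?_
    · simp only [ha, secX, t4]
      field_simp
      ring
    · rw [sw_negY]
      simp only [ha, secX, secY, t4]
      field_simp
      ring
  have d3 : (Point.some _ _ hSneg : (sw a b).Point) = -Point.some _ _ hS := by
    rw [Point.neg_some]
  have e5 : (5 : ℤ) • (Point.some _ _ hS : (sw a b).Point) =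
      ((Point.some _ _ hS + Point.some _ _ hS) + (Point.some _ _ hS + Point.some _ _ hS)) +
        Point.some _ _ hS := by
    rw [show (5 : ℤ) = 2 + 2 + 1 by norm_num, add_smul, add_smul, two_smul, one_smul]
  rw [e5, d1, d2, d3, neg_add_cancel]

end Fermat.Agent.S52.Five
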